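/-
PROJECT C, Layer D (helper8), DatumBuild block 1: the LOCAL fields of `D.Main.Datum` for the
tensor model over `k = Zp p`.

For `q ∈ S`:
* `Dloc p S q := Zp p ⊗ Q̄_q^×` as a representation of `Gv S q` (the prelude's local Galois group);
* `isSmooth_Dloc` (`smD`), `div_Dloc` (`divD`, since `Q̄_q` is algebraically closed);
* `cfDloc` (`cfD`): helper21's local class formation over `k`, restricted from the intrinsic family
  `levelsLoc q` to the pulled-back family `Uv S q` (`ClassFormation.ofSubset`);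
* `JK p S := Zp p ⊗ J_S`, `piK p S q : Rep.res (rv S q) (JK p S) ⟶ Dloc p S q` (`π`).
-/
import Fermat.Agent.CFT.D.ZpModel
import Fermat.Agent.CFT.D.Reduce
import Fermat.Agent.CFT.Idele.LocalEval
import Fermat.Agent.CFT.Local.ClassFormationLocK
import Fermat.Agent.CFT.A7.BaseChangeExact

set_option autoImplicit false

noncomputable section

namespace Fermat.Agent.CFT.A7

open Fermat.Agent.CFT.LC

/-- A class formation restricts to every sub-family of levels. -/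
def ClassFormation.ofSubset {k G : Type} [CommRing k] [Group G] {C : Rep.{0} k G}
    {𝒰 𝒰' : Levels G} (cf : ClassFormation 𝒰 C) (h : 𝒰'.sets ⊆ 𝒰.sets) :
    ClassFormation 𝒰' C where
  finiteIndex U hU := cf.finiteIndex U (h hU)
  φ U _ hU := cf.φ U (h hU)
  isClassModule U _ hU := cf.isClassModule U (h hU)
  h1 U _ hU := cf.h1 U (h hU)
  hgen U _ hU := cf.hgen U (h hU)
  hord U _ hU := cf.hord U (h hU)
  infl_φ U W _ _ hU hW hle := cf.infl_φ U W (h hU) (h hW) hle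

end Fermat.Agent.CFT.A7

namespace Fermat.Agent.CFT.LC

/-- Smoothness passes to a finer family of levels. -/
theorem IsSmooth.of_refines {k G : Type} [CommRing k] [Group G] {A : Rep.{0} k G}
    {𝒰 𝒱 : Levels G} (h : 𝒰.Refines 𝒱) (hA : IsSmooth 𝒱 A) : IsSmooth 𝒰 A := fun a => by
  obtain ⟨V, hV, hfix⟩ := hA a
  obtain ⟨U, hU, hle⟩ := h V hV
  exact ⟨U, hU, fun s hs => hfix s (hle hs)⟩

end Fermat.Agent.CFT.LC

namespace Fermat.Agent.CFT.D.DatumBuild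

open CategoryTheory ExtCitation TensorProduct
open Fermat.Agent.CFT.LC Fermat.Agent.CFT.Bridge Fermat.Agent.CFT.LocalBridge
open Fermat.Agent.CFT.D.Reduce Fermat.Agent.CFT.D.ZpModel Fermat.Agent.CFT.A7
open Fermat.Agent.CFT.A7.BaseChange Fermat.Agent.CFT.GaloisDict Fermat.Agent.CFT.Idele
open Fermat.Agent.CFT.Local.ClassFormationLC

variable (p : ℕ) [Fact p.Prime] (S : Finset Nat.Primes)

/-- `Q̄_q^×` as a `ℤ`-representation of the local Galois group. -/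
abbrev unitsQ (q : Nat.Primes) : Rep.{0} ℤ (LocGal (q : ℕ)) :=
  unitsRep ℚ_[(q : ℕ)] (PadicAlgCl (q : ℕ))

/-- The local module `D_q = Q̄_q^× ⊗ ℤ_(p)`. -/
def Dloc (q : ↥S) : Rep.{0} (Zp p) (Gv S q) :=
  (tensorRep (k := Zp p) (unitsQ q.1) : Rep.{0} (Zp p) (LocGal (q.1 : ℕ)))

theorem isLocRep_Dloc (q : ↥S) :
    IsLocRep (primeTo p) (unitsQ q.1)
      (tensorRep (k := Zp p) (unitsQ q.1) : Rep.{0} (Zp p) (LocGal (q.1 : ℕ)))
      (toTensorRep (unitsQ q.1)) :=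
  isLocRep_tensorRep (primeTo p) (unitsQ q.1)

/-- `Q̄_q^×` is smooth for the pulled-back family of levels. -/
theorem isSmooth_unitsQ (q : Nat.Primes) :
    IsSmooth (levelsOf (localGaloisToGlobal (q : ℕ))) (unitsQ q) :=
  IsSmooth.of_refines (levelsOf_refines_levelsLoc (q : ℕ)) (isSmooth_unitsRep_levelsLoc (q : ℕ))

/-- **`smD`** -/
theorem isSmooth_Dloc (q : ↥S) : IsSmooth (Uv S q) (Dloc p S q) :=
  isSmooth_tensorRep (k := Zp p) (primeTo p) (levelsOf (localGaloisToGlobal (q.1 : ℕ)))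
    (isSmooth_unitsQ q.1)

/-- Every unit of `Q̄_q` is a `p`-th power. -/
theorem exists_nsmul_unitsQ (q : Nat.Primes) (u : (unitsQ q).V) : ∃ v : (unitsQ q).V, p • v = u := by
  have hp : p ≠ 0 := (Fact.out : p.Prime).ne_zero
  set x : (PadicAlgCl (q : ℕ))ˣ := Additive.toMul u with hx
  obtain ⟨z, hz⟩ := IsAlgClosed.exists_pow_nat_eq (x : PadicAlgCl (q : ℕ)) (Nat.pos_of_ne_zero hp)
  have hz0 : z ≠ 0 := fun h => by
    rw [h, zero_pow hp] at hz
    exact x.ne_zero hz.symm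
  refine ⟨Additive.ofMul (Units.mk0 z hz0), ?_⟩
  apply Additive.toMul.injective
  apply Units.ext
  change ((Units.mk0 z hz0) ^ p : (PadicAlgCl (q : ℕ))ˣ).1 = x.1
  rw [Units.val_pow_eq_pow_val, Units.val_mk0, hz]

/-- **`divD`** -/
theorem div_Dloc (q : ↥S) (x : (Dloc p S q).V) : ∃ y : (Dloc p S q).V, (p : Zp p) • y = x := by
  change ∃ y : Zp p ⊗[ℤ] (unitsQ q.1).V, (p : Zp p) • y = (x : Zp p ⊗[ℤ] (unitsQ q.1).V)
  induction (x : Zp p ⊗[ℤ] (unitsQ q.1).V) using TensorProduct.induction_on with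
  | zero => exact ⟨0, smul_zero _⟩
  | tmul a u =>
    obtain ⟨v, rfl⟩ := exists_nsmul_unitsQ p q.1 u
    refine ⟨a ⊗ₜ v, ?_⟩
    rw [TensorProduct.tmul_smul]
    exact Nat.cast_smul_eq_nsmul (Zp p) p _
  | add x y hx hy =>
    obtain ⟨x', rfl⟩ := hx
    obtain ⟨y', rfl⟩ := hy
    exact ⟨x' + y', smul_add _ _ _⟩

/-- **`cfD`**: the local class formation over `ℤ_(p)` on the pulled-back family of levels. -/
def cfDloc (q : ↥S) : ClassFormation (Uv S q) (Dloc p S q) :=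
  (classFormationLocK (k := Zp p) (q.1 : ℕ) (primeTo p) (isLocRep_Dloc p S q)).ofSubset
    (levelsOf_sets_subset (q.1 : ℕ))

/-- `J_S ⊗ ℤ_(p)`. -/
abbrev JK : Rep.{0} (Zp p) GQ := tensorRep (k := Zp p) (QS.J S)

/-- `E_S ⊗ ℤ_(p)`. -/
abbrev EK : Rep.{0} (Zp p) GQ := tensorRep (k := Zp p) (QS.E S)

/-- **`π`**: the localisation `J_S ⊗ ℤ_(p) → Q̄_q^× ⊗ ℤ_(p)`. -/
def piK (q : ↥S) : Rep.res (rv S q) (JK p S) ⟶ Dloc p S q :=
  (tensorMap (Zp p) (QS.loc q.1 S) :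
    (tensorRep (k := Zp p) (Rep.res (localGaloisToGlobal (q.1 : ℕ)) (QS.J S)) :
      Rep.{0} (Zp p) (LocGal (q.1 : ℕ))) ⟶ tensorRep (k := Zp p) (unitsQ q.1))

theorem piK_tmul (q : ↥S) (a : Zp p) (x : (QS.J S).V) :
    (piK p S q).hom (a ⊗ₜ[ℤ] x : Zp p ⊗[ℤ] (QS.J S).V) =
      (a ⊗ₜ[ℤ] (QS.loc q.1 S).hom x : Zp p ⊗[ℤ] (unitsQ q.1).V) :=
  tensorMap_tmul (Zp p) (QS.loc q.1 S) a x

end Fermat.Agent.CFT.D.DatumBuild
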