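/-
PROJECT C, Layer D (helper8), DatumBuild block 2: `μ_p ⊂ E_S ⊗ ℤ_(p)` and the torsion-bijectivity
of `E_S ⊗ ℤ_(p) → Q̄_q^× ⊗ ℤ_(p)`.

* `embE S : (QS.E S).V →+ Additive Qbarˣ`, `muP_mem_ED` (`μ_p ⊂ E_S` for helper11's model when
  `p ∈ S`), `j0 : ZMod p →+ (QS.E S).V`;
* `iotaK : resScalars (phi p) (chiRep (cycloChar p)) ⟶ EK p S` with `iotaK_injective`,
  `iotaK_range` (fields `ι`, `ι_inj`, `ι_range` of `D.Main.Datum`);
* `fK : EK p S ⟶ JK p S` (the base change of `E_S → J_S`), `loc_inj`, `loc_surj` (fields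
  `loc_inj`, `loc_surj`).
-/
import Fermat.Agent.CFT.D.Datum.Local
import Fermat.Agent.CFT.D.MuPLoc

set_option autoImplicit false

noncomputable section

namespace Fermat.Agent.CFT.D.DatumBuild

open CategoryTheory ExtCitation TensorProduct
open Fermat.Agent.CFT.LC Fermat.Agent.CFT.Bridge Fermat.Agent.CFT.LocalBridge
open Fermat.Agent.CFT.D.Reduce Fermat.Agent.CFT.D.ZpModel Fermat.Agent.CFT.A7
open Fermat.Agent.CFT.A7.BaseChange Fermat.Agent.CFT.GaloisDict Fermat.Agent.CFT.Idele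
open Fermat.Agent.CFT.D.CoeffChange Fermat.Agent.CFT.D.DualTwist Fermat.Agent.CFT.D.MuPLoc
open Fermat.Agent.CFT.D

variable (p : ℕ) [Fact p.Prime] (S : Finset Nat.Primes)

/-! ### `μ_p ⊂ E_S` -/

/-- The embedding `E_S → Q̄^×`. -/
def embE : (QS.E S).V →+ Additive Qbarˣ :=
  (MonoidHom.toAdditive (ED (isFieldFilter_unram S) (S : Set Nat.Primes)).subtype :
    Additive (ED (isFieldFilter_unram S) (S : Set Nat.Primes)) →+ Additive Qbarˣ)

theorem embE_apply (x : Additive (ED (isFieldFilter_unram S) (S : Set Nat.Primes))) :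
    embE S x = Additive.ofMul ((Additive.toMul x : ED _ _) : Qbarˣ) := rfl

theorem embE_injective : Function.Injective (embE S) := fun x y h => by
  have h1 : ((Additive.toMul x : ED _ _) : Qbarˣ) = (Additive.toMul y : ED _ _) := h
  exact congrArg Additive.ofMul (Subtype.ext h1)

theorem embE_ρ (σ : Qbar ≃ₐ[ℚ] Qbar) (x : (QS.E S).V) :
    embE S ((QS.E S).ρ σ x) = Additive.ofMul
      (Units.map ((σ : Qbar →+* Qbar) : Qbar →* Qbar) (Additive.toMul (embE S x))) := by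
  apply congrArg Additive.ofMul
  apply Units.ext
  rfl

/-- `μ_p ⊂ E_S` (helper11's model) when `p ∈ S`. -/
theorem muP_mem_ED (hpS : pPrime p ∈ S) (c : ZMod p) :
    Additive.toMul (MuP.muP p c) ∈ ED (isFieldFilter_unram S) (S : Set Nat.Primes) := by
  have hp : p ≠ 0 := (Fact.out : p.Prime).ne_zero
  have hES := MuP.muP_mem_ES p (S := S) hpS c
  obtain ⟨F, hF, hmem⟩ := Fermat.Agent.CFT.C7.KummerUnram.mem_QS_iff.mp hES.1
  refine ⟨⟨F, hF, hmem⟩, ?_⟩
  -- roots of unity are integral units everywhere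
  have hpow : (Additive.toMul (MuP.muP p c)) ^ p = 1 := MuP.nsmul_muP p c
  have hint : ∀ u : Qbarˣ, u ^ p = 1 → IsIntegral ℤ (u : Qbar) := fun u hu => by
    apply IsIntegral.of_pow (Nat.pos_of_ne_zero hp)
    rw [← Units.val_pow_eq_pow_val, hu, Units.val_one]
    exact isIntegral_one
  show _ ∈ TUnits Qbar (S : Set Nat.Primes)
  rw [mem_TUnits]
  intro q _
  exact ⟨inclL_mem_intRing_of_isIntegral Qbar q (hint _ hpow),
    inclL_mem_intRing_of_isIntegral Qbar q (hint _ (by rw [inv_pow, hpow, inv_one]))⟩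

/-- The copy of `μ_p` inside `E_S`. -/
def j0 (hpS : pPrime p ∈ S) : ZMod p →+ (QS.E S).V :=
  liftMuP p (embE S) (embE_injective S)
    (fun c => ⟨Additive.ofMul ⟨Additive.toMul (MuP.muP p c), muP_mem_ED p S hpS c⟩, rfl⟩)

theorem embE_j0 (hpS : pPrime p ∈ S) (c : ZMod p) : embE S (j0 p S hpS c) = MuP.muP p c :=
  e_liftMuP p (embE S) (embE_injective S) _ c

/-- **`ι`**: `μ_p ⊂ E_S ⊗ ℤ_(p)`. -/
def iotaK (hpS : pPrime p ∈ S) : resScalars (phi p) (chiRep (cycloChar p)) ⟶ EK p S :=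
  iotaLoc (phi p) (cycloChar p) (isLocRep_tensorRep (k := Zp p) (primeTo p) (QS.E S))
    (j0 p S hpS) (liftMuP_equiv p (embE S) (embE_injective S) (embE_ρ S) _) (addHomsLinear p)

/-- **`ι_inj`** -/
theorem iotaK_injective (hpS : pPrime p ∈ S) : Function.Injective (iotaK p S hpS).hom :=
  iotaLoc_injective (phi p) (cycloChar p) (isLocRep_tensorRep (k := Zp p) (primeTo p) (QS.E S))
    (isCoprime_of_mem_primeTo p) (j0 p S hpS) (liftMuP_injective p (embE S) (embE_injective S) _)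
    (liftMuP_tors p (embE S) (embE_injective S) _)
    (liftMuP_equiv p (embE S) (embE_injective S) (embE_ρ S) _) (addHomsLinear p)

/-- **`ι_range`** -/
theorem iotaK_range (hpS : pPrime p ∈ S) (e : (EK p S).V) (he : (p : Zp p) • e = 0) :
    ∃ c, (iotaK p S hpS).hom c = e :=
  iotaLoc_range (phi p) (cycloChar p) (isLocRep_tensorRep (k := Zp p) (primeTo p) (QS.E S))
    (isCoprime_of_mem_primeTo p) (j0 p S hpS) (liftMuP_range p (embE S) (embE_injective S) _)
    (liftMuP_equiv p (embE S) (embE_injective S) (embE_ρ S) _) (addHomsLinear p) e he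

theorem iotaK_apply (hpS : pPrime p ∈ S) (c : ZMod p) :
    (iotaK p S hpS).hom (toRes (phi p) (chiRep (cycloChar p)) c) =
      toTensorRep (k := Zp p) (QS.E S) (j0 p S hpS c) := rfl

/-! ### `μ_p ⊂ Q̄_q^×` -/

/-- The `p`-th roots of unity of `Q̄_q`. -/
def j0loc (q : Nat.Primes) : ZMod p →+ (unitsQ q).V :=
  (MonoidHom.toAdditive (Units.map ((padicEmbedding (q : ℕ) : Qbar →+* PadicAlgCl (q : ℕ)) :
    Qbar →* PadicAlgCl (q : ℕ))) : Additive Qbarˣ →+ Additive (PadicAlgCl (q : ℕ))ˣ).comp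
    (MuP.muP p)

theorem j0loc_apply (q : Nat.Primes) (c : ZMod p) :
    j0loc p q c = Additive.ofMul (Units.map ((padicEmbedding (q : ℕ) :
      Qbar →+* PadicAlgCl (q : ℕ)) : Qbar →* PadicAlgCl (q : ℕ)) (Additive.toMul (MuP.muP p c))) :=
  rfl

theorem units_map_padicEmbedding_injective (q : Nat.Primes) :
    Function.Injective (Units.map ((padicEmbedding (q : ℕ) : Qbar →+* PadicAlgCl (q : ℕ)) :
      Qbar →* PadicAlgCl (q : ℕ))) :=
  Units.map_injective (padicEmbedding (q : ℕ) : Qbar →+* PadicAlgCl (q : ℕ)).injective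

theorem j0loc_injective (q : Nat.Primes) : Function.Injective (j0loc p q) := fun _ _ h =>
  MuP.muP_injective p (congrArg Additive.ofMul
    (units_map_padicEmbedding_injective q (congrArg Additive.toMul h)))

theorem j0loc_tors (q : Nat.Primes) (c : ZMod p) : ((p : ℕ) : ℤ) • j0loc p q c = 0 := by
  rw [natCast_zsmul, ← map_nsmul, nsmul_eq_mul, ZMod.natCast_self, zero_mul, map_zero]

theorem j0loc_range (q : Nat.Primes) (u : (unitsQ q).V) (hu : ((p : ℕ) : ℤ) • u = 0) :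
    ∃ c, j0loc p q c = u := by
  have : NeZero p := ⟨(Fact.out : p.Prime).ne_zero⟩
  have hu' : p • u = 0 := by rwa [natCast_zsmul] at hu
  set ζ' : (PadicAlgCl (q : ℕ))ˣ := Units.map ((padicEmbedding (q : ℕ) :
    Qbar →+* PadicAlgCl (q : ℕ)) : Qbar →* PadicAlgCl (q : ℕ)) (MuP.zeta p) with hζ'
  have hprim : IsPrimitiveRoot ζ' p :=
    (MuP.zeta_spec p).map_of_injective (units_map_padicEmbedding_injective q)
  set v : (PadicAlgCl (q : ℕ))ˣ := Additive.toMul (u : Additive (PadicAlgCl (q : ℕ))ˣ) with hv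
  have h1 : v ∈ rootsOfUnity p (PadicAlgCl (q : ℕ)) := by
    rw [mem_rootsOfUnity]
    exact hu'
  have h2 : v ∈ Subgroup.zpowers ζ' := by
    rw [hprim.zpowers_eq]
    exact h1
  obtain ⟨n, hn⟩ := h2
  refine ⟨(n : ZMod p), ?_⟩
  rw [j0loc_apply, MuP.muP_intCast, toMul_ofMul, map_zpow]
  exact congrArg Additive.ofMul hn

/-! ### The base change of `E_S → J_S` and torsion-bijectivity -/

/-- `E_S ⊗ ℤ_(p) → J_S ⊗ ℤ_(p)`. -/
abbrev fK : EK p S ⟶ JK p S := tensorMap (Zp p) (QS.seq S).f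

/-- The localisation of the diagonal image of `μ_p` is `μ_p(Q̄_q)`. -/
theorem loc_f_j0 (hpS : pPrime p ∈ S) (q : ↥S) (c : ZMod p) :
    (QS.loc q.1 S).hom ((QS.seq S).f.hom (j0 p S hpS c)) = j0loc p q.1 c := by
  have h1 := embE_j0 p S hpS c
  rw [embE_apply] at h1
  have h2 : ((Additive.toMul (j0 p S hpS c) : ED _ _) : Qbarˣ) = Additive.toMul (MuP.muP p c) :=
    congrArg Additive.toMul h1
  rw [j0loc_apply, ← h2]
  apply congrArg Additive.ofMul
  apply Units.ext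
  change evalQ q.1 ((((ED.diag (isFieldFilter_unram S) (S : Set Nat.Primes)
    (Additive.toMul (j0 p S hpS c)) : JD _ _) : Idele.J Qbar) :
      ∀ q : Nat.Primes, (Loc Qbar q)ˣ) q.1 : Loc Qbar q.1) = _
  rw [ED.diag_val, trunc_of_mem _ (Finset.mem_coe.mpr q.2), diag_apply]
  change evalQ q.1 ((((Additive.toMul (j0 p S hpS c) : ED _ _) : Qbarˣ) : Qbar) ⊗ₜ[ℚ]
    (1 : ℚ_[(q.1 : ℕ)])) = _
  rw [evalQ_tmul, map_one, mul_one]
  rfl

theorem piK_fK_toTensorRep (q : ↥S) (x : (QS.E S).V) :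
    (piK p S q).hom ((fK p S).hom (toTensorRep (k := Zp p) (QS.E S) x)) =
      toTensorRep (k := Zp p) (unitsQ q.1) ((QS.loc q.1 S).hom ((QS.seq S).f.hom x)) := by
  rw [toTensorRep_apply, toTensorRep_apply]
  erw [tensorMap_tmul]
  exact piK_tmul p S q 1 _

/-- **`loc_inj`** -/
theorem loc_inj (hpS : pPrime p ∈ S) (q : ↥S) (x : (EK p S).V) (hx : (p : Zp p) • x = 0)
    (h : (piK p S q).hom ((fK p S).hom x) = 0) : x = 0 := by
  obtain ⟨c, rfl⟩ := iotaK_range p S hpS x hx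
  obtain ⟨c, rfl⟩ := (toRes (phi p) (chiRep (cycloChar p))).surjective c
  rw [iotaK_apply] at h ⊢
  rw [piK_fK_toTensorRep, loc_f_j0 p S hpS q c] at h
  have hc : c = 0 := by
    have hinj := comp_injective (isLocRep_Dloc p S q) (isCoprime_of_mem_primeTo p) (j0loc p q.1)
      (j0loc_injective p q.1) (j0loc_tors p q.1)
    exact hinj (h.trans (map_zero _).symm)
  rw [hc, map_zero, map_zero]

/-- **`loc_surj`** -/
theorem loc_surj (hpS : pPrime p ∈ S) (q : ↥S) (d : (Dloc p S q).V) (hd : (p : Zp p) • d = 0) :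
    ∃ x : (EK p S).V, (p : Zp p) • x = 0 ∧ (piK p S q).hom ((fK p S).hom x) = d := by
  obtain ⟨c, hc⟩ := comp_range (isLocRep_Dloc p S q) (isCoprime_of_mem_primeTo p) (j0loc p q.1)
    (j0loc_range p q.1) d hd
  refine ⟨toTensorRep (k := Zp p) (QS.E S) (j0 p S hpS c), ?_, ?_⟩
  · have h1 : ((p : ℕ) : ℤ) • j0 p S hpS c = 0 := liftMuP_tors p (embE S) (embE_injective S) _ c
    have h2 := (isLocRep_tensorRep (k := Zp p) (primeTo p) (QS.E S)).map_smul ((p : ℕ) : ℤ)
      (j0 p S hpS c)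
    have h3 := h2.symm.trans ((congrArg (toTensorRep (k := Zp p) (QS.E S)) h1).trans (map_zero _))
    rwa [map_natCast] at h3
  · rw [piK_fK_toTensorRep, loc_f_j0 p S hpS q c]
    exact hc

end Fermat.Agent.CFT.D.DatumBuild
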