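/-
PROJECT C, Layer D (helper8), DatumBuild block 3: THE DATUM.

`theDatum p S hpS cf supp n3 : D.Main.Datum S (phi p)` over `k = Zp p` from the three GLOBAL inputs
still owed by Layer C:

* `cf`   : the global class formation on `C_S ⊗ k = (seqK S (Zp p)).X₃`   (C7-CF);
* `supp` : the local–global support statement (i)                          ((G-c));
* `n3`   : the exponent-`p` existence theorem                               ((N3)).

Everything else is discharged here from landed files: helper27 `C7.SES.seqK` (sequence, exactness,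
smoothness, divisibility), helper23 `D.DatumInjFrob` (`DlocK`, `piJK`, `inj`, `frob`, `h4_one`,
`h4_two`), helper13 `A7.TorsionP` + helper6 `Bridge.LevelP` (`hT`), and `D/Datum/Local`, `D/Datum/Mu`
(`smD`, `divD`, `cfD`, `ι`, `loc_inj`, `loc_surj`).  `result_of_global` is the frozen S55 conclusion
from the three global inputs.
-/
import Fermat.Agent.CFT.D.Datum.Mu
import Fermat.Agent.CFT.D.Main
import Fermat.Agent.CFT.D.DatumInjFrob
import Fermat.Agent.CFT.C7.SES
import Fermat.Agent.CFT.A7.TorsionP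
import Fermat.Agent.CFT.A7.BaseChangeLift
import Fermat.Agent.CFT.Bridge.LevelP

set_option autoImplicit false

noncomputable section

namespace Fermat.Agent.CFT.D.DatumBuild

open CategoryTheory ExtCitation TensorProduct groupCohomology
open Fermat.Agent.CFT.LC Fermat.Agent.CFT.Bridge Fermat.Agent.CFT.LocalBridge
open Fermat.Agent.CFT.D.Reduce Fermat.Agent.CFT.D.ZpModel Fermat.Agent.CFT.A7
open Fermat.Agent.CFT.A7.BaseChange Fermat.Agent.CFT.GaloisDict Fermat.Agent.CFT.Idele
open Fermat.Agent.CFT.D.Main Fermat.Agent.CFT.D.DatumInjFrob Fermat.Agent.CFT.C7.SES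
open Fermat.Agent.CFT.D.Realize Fermat.Agent.CFT.D

variable (p : ℕ) [Fact p.Prime] (S : Finset Nat.Primes)

/-- helper23's `π` is the base change of `QS.loc`. -/
theorem piJK_eq_piK (q : ↥S) :
    piJK S (Zp p) q = (piK p S q : Rep.res (rv S q) (JK p S) ⟶ DlocK S (Zp p) q) := by
  refine ((isLocRep_tensorRep (k := Zp p) (primeTo p) (QS.J S)).res (rv S q)).hom_ext ?_
  intro x
  have h2 : (piK p S q).hom (toTensorRep (k := Zp p) (QS.J S) x) =
      toTensorRep (k := Zp p) (unitsQ q.1) ((QS.loc q.1 S).hom x) := piK_tmul p S q 1 x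
  refine Eq.trans ?_ h2.symm
  change (piqK S (Zp p) q).hom
    ((tensorMap (Zp p) (QS.proj S q.1)).hom (toTensorRep (k := Zp p) (QS.J S) x)) = _
  rw [← tensorMap_toTensorRep]
  exact Fermat.Agent.CFT.D.H4.tensorMapRes_toTensorRep (Zp p) _ _ _

/-- The three global inputs still owed by Layer C. -/
structure GlobalInputs where
  /-- the global class formation -/
  cf : ClassFormation (levelsS S) (seqK S (Zp p)).X₃
  /-- (i): a class of `H²(G_S, J)` supported at one prime and dying in `H²(G_S, C)` vanishes -/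
  supp : ∀ q, ∀ y : H (levelsS S) (seqK S (Zp p)).X₂ 2,
    (∀ q', q' ≠ q → map (A := (seqK S (Zp p)).X₂) (B := DlocK S (Zp p) q') (hrv S q')
      (piJK S (Zp p) q') 2 y = 0) → mapId (seqK S (Zp p)).g 2 y = 0 → y = 0
  /-- (N3): exponent-`p` existence theorem, cofinally -/
  n3 : ∀ U₀ ∈ (levelsS S).sets, ∃ U' : Subgroup GQ, ∃ _ : U'.Normal,
    U' ∈ (levelsS S).sets ∧ U' ≤ U₀ ∧
      ((p : ℕ) : Zp p) ∣ ((Nat.card (GQ ⧸ U') : ℕ) : Zp p) ∧
      ∀ [Fintype (layerSub U₀ U')], N3 (seqK S (Zp p)).X₃ ((p : ℕ) : Zp p) U₀ U'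

variable {p S}

/-- **The arithmetic datum of Poitou–Tate duality for `G_{ℚ,S}`**, from the global inputs. -/
def theDatum (hpS : pPrime p ∈ S) (g : GlobalInputs p S) : Datum S (phi p) where
  SES := seqK S (Zp p)
  exact := seqK_shortExact p (Zp p) hpS
  smE := isSmooth_seqK_X₁ S p (Zp p)
  smJ := isSmooth_seqK_X₂ S p (Zp p)
  smC := isSmooth_seqK_X₃ S p (Zp p)
  divE := seqK_divE p (Zp p) hpS
  ι := iotaK p S hpS
  ι_inj := iotaK_injective p S hpS
  ι_range := iotaK_range p S hpS
  cf := g.cf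
  hT := by
    obtain ⟨U, hU, hdvd⟩ := LevelP.exists_level_dvd_card S (pPrime p) hpS
    have : U.Normal := (levelsS S).normal U hU
    exact g.cf.card_torsionP p U hU hdvd (Fact.out : p.Prime).ne_zero (card_quotient_span_p p)
  Dloc := DlocK S (Zp p)
  π := piJK S (Zp p)
  smD := isSmooth_Dloc p S
  divD := div_Dloc p S
  loc_inj := fun q x hx h => by
    rw [piJK_eq_piK] at h
    exact loc_inj p S hpS q x hx h
  loc_surj := fun q d hd => by
    obtain ⟨x, hx, h⟩ := loc_surj p S hpS q d hd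
    refine ⟨x, hx, ?_⟩
    rw [piJK_eq_piK]
    exact h
  cfD := cfDloc p S
  h4_one := fun B _ _ hB x hx => h4_one_JK S (Zp p) (primeTo p) B hB x hx
  h4_two := fun B _ _ hB x hx => h4_two_JK S (Zp p) (primeTo p) B hB x hx
  supp := g.supp
  inj := inj_JK S (Zp p) (primeTo p)
  frob := frob_JK S (Zp p) (primeTo p)
  n3 := g.n3

/-- **Poitou–Tate duality for `Ш¹`, `Ш²` (frozen statement S55) from the three global inputs.** -/
theorem result_of_global (hp2 : p ≠ 2) (hpS : pPrime p ∈ S) (g : GlobalInputs p S)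
    (M : Rep (ZMod p) GQ) [FiniteDimensional (ZMod p) M]
    (hsm : ∀ m : M, ∃ F : IntermediateField ℚ Qbar, FiniteDimensional ℚ F ∧
      ∀ s ∈ F.fixingSubgroup, M.ρ s m = m)
    (hMur : ∀ q : Nat.Primes, q ∉ S → ∀ A : ValuationSubring Qbar,
      A.LiesOverPrime (q : ℕ) → ∀ g ∈ A.inertiaSubgroupIn ℚ, M.ρ g = 1) :
    ∃ B : sha₁ S (M.dualTwist (cycloChar p)) →ₗ[ZMod p] sha₂ S M →ₗ[ZMod p] ZMod p,
      (∀ y, (∀ x, B y x = 0) → y = 0) ∧ (∀ x, (∀ y, B y x = 0) → x = 0) :=
  result_of_datum S (phi p) (addHomsLinear p) (theDatum hpS g) hp2 hpS M hsm hMur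

end Fermat.Agent.CFT.D.DatumBuild
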