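/-
PROJECT C, Layer D (helper23), DatumBuild block (LG): the LOCAL-GLOBAL fields `inj`, `frob`,
`h4_one`, `h4_two` of `D.Main.Datum` for helper8's tensor-model objects over `k = Zp p`
(`D/Datum/Local.lean`: `JK p S`, `Dloc p S q`, `piK p S q = Zp p ⊗ QS.loc q S`), in the exact field
types, with `SES.X₂ = JK p S = (C7.SES.seqK S (Zp p)).X₂`.

They are the statements of `D/DatumInjFrob.lean` (for `piJK = (biprodK).loc`) transported along
`piK_eq_piJK`.
-/
import Fermat.Agent.CFT.D.Datum.Local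
import Fermat.Agent.CFT.D.DatumInjFrob

set_option autoImplicit false

noncomputable section

namespace Fermat.Agent.CFT.D.DatumLG

open CategoryTheory ExtCitation TensorProduct
open Fermat.Agent.CFT.LC Fermat.Agent.CFT.LC.El Fermat.Agent.CFT.Bridge
open Fermat.Agent.CFT.D.Reduce Fermat.Agent.CFT.D.ZpModel Fermat.Agent.CFT.A7
open Fermat.Agent.CFT.A7.BaseChange Fermat.Agent.CFT.A7.HomRep Fermat.Agent.CFT.Idele
open Fermat.Agent.CFT.D.DatumBuild Fermat.Agent.CFT.D.DatumInjFrob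

variable (p : ℕ) [Fact p.Prime] (S : Finset Nat.Primes)

/-- helper8's `π` is the localisation map of the biproduct data `J_S ⊗ k = ⊕ J_q ⊗ k`. -/
theorem piK_eq_piJK (q : ↥S) : piK p S q = piJK S (Zp p) q := by
  apply Rep.hom_ext
  apply Representation.IntertwiningMap.ext
  apply LinearMap.ext
  intro x
  induction x using TensorProduct.induction_on with
  | zero => rw [map_zero, map_zero]
  | tmul c x => rfl
  | add a b ha hb => rw [map_add, map_add, ha, hb]

/-- **Field `inj`** for `SES.X₂ = JK p S`, `Dloc = Dloc p S`, `π = piK p S`. -/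
theorem inj_piK (y : H (levelsS S) (JK p S) 2)
    (hy : ∀ q, map (A := JK p S) (B := Dloc p S q) (hrv S q) (piK p S q) 2 y = 0) : y = 0 := by
  refine inj_JK S (Zp p) (primeTo p) y (fun q => ?_)
  have h := hy q
  rw [piK_eq_piJK] at h
  exact h

/-- **Field `frob`** for `SES.X₂ = JK p S`, `Dloc = Dloc p S`, `π = piK p S`. -/
theorem frob_piK (R : Rep.{0} (Zp p) GQ) (hR : IsSmooth (levelsS S) R) (q : ↥S)
    (χ : Rep.res (rv S q) R ⟶ Dloc p S q) :
    ∃ ψ : R ⟶ JK p S, (Rep.resFunctor (rv S q)).map ψ ≫ piK p S q = χ ∧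
      ∀ q', q' ≠ q → (Rep.resFunctor (rv S q')).map ψ ≫ piK p S q' = 0 := by
  obtain ⟨ψ, h1, h2⟩ := frob_JK S (Zp p) (primeTo p) R hR q χ
  refine ⟨ψ, ?_, fun q' hq' => ?_⟩
  · rw [piK_eq_piJK]
    exact h1
  · rw [piK_eq_piJK]
    exact h2 q' hq'

/-- **Field `h4_one`** for `SES.X₂ = JK p S`, `Dloc = Dloc p S`, `π = piK p S`. -/
theorem h4_one_piK (B : Rep.{0} (Zp p) GQ)
    (hB : ∃ U ∈ (levelsS S).sets, ∀ u ∈ U, ∀ b : B.V, B.ρ u b = b)
    (x : H (levelsS S) (homRep B (JK p S)) 1)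
    (hx : ∀ q, map (A := homRep B (JK p S)) (B := homRep (Rep.res (rv S q) B) (Dloc p S q))
      (hrv S q) (locHom (rv S) q B (JK p S) (piK p S q)) 1 x = 0) : x = 0 := by
  refine h4_one_JK S (Zp p) (primeTo p) B hB x (fun q => ?_)
  have h := hx q
  rw [piK_eq_piJK] at h
  exact h

/-- **Field `h4_two`** for `SES.X₂ = JK p S`, `Dloc = Dloc p S`, `π = piK p S`. -/
theorem h4_two_piK (B : Rep.{0} (Zp p) GQ) [Module.Free (Zp p) B.V]
    (hB : ∃ U ∈ (levelsS S).sets, ∀ u ∈ U, ∀ b : B.V, B.ρ u b = b)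
    (x : H (levelsS S) (homRep B (JK p S)) 2)
    (hx : ∀ q, map (A := homRep B (JK p S)) (B := homRep (Rep.res (rv S q) B) (Dloc p S q))
      (hrv S q) (locHom (rv S) q B (JK p S) (piK p S q)) 2 x = 0) : x = 0 := by
  refine h4_two_JK S (Zp p) (primeTo p) B hB x (fun q => ?_)
  have h := hx q
  rw [piK_eq_piJK] at h
  exact h

end Fermat.Agent.CFT.D.DatumLG
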