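/-
PROJECT C, Layer D (helper8): the field `supp` of `DatumBuild.GlobalInputs`, GENERIC PART.

`D.CyclicClass.exists_class` produces one class `y₀ ∈ H²_LC(G, XK)` with `r • y₀ = 0` and
`gK_* y₀ ≠ 0` from a cyclic layer `(G ⧸ U = ⟨σ⟩, XK^U)` and an invariant `a₀` with `r • a₀` a norm
and `gK a₀` not a norm.  Here these hypotheses are transported

* `loc_class_hyps` : along localisations `X → XK`, `X' → XK'` (`A7.BaseChange.IsLocRep`): it is
  enough to know, over the base ring `R`, that `r • a` is a norm and that NO multiple `s • g a`,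
  `s ∈ M`, is a norm;
* `dict_class_hyps` : along layer dictionaries `(G ⧸ U, X^U) ≅ (Γ, A)`, `(G ⧸ U, X'^U) ≅ (Γ, A')`
  (`C7.LevelK.LayerDict`) : it is enough to know the same on the finite-level models;
* `exists_class_of_dict` : the combination, in the output shape of `exists_class`.
-/
import Fermat.Agent.CFT.D.CyclicClass
import Fermat.Agent.CFT.C7.LevelK
import Fermat.Agent.CFT.A7.ClassFormationBaseChange

set_option autoImplicit false

noncomputable section

namespace Fermat.Agent.CFT.D.DatumBuild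

open CategoryTheory groupCohomology Fermat.Agent.CFT.LC Fermat.Agent.CFT.A7
  Fermat.Agent.CFT.A7.BaseChange Fermat.Agent.CFT.A7.CFBaseChange
  Fermat.Agent.CFT.Local.CyclicH2 Fermat.Agent.CFT.C7.LevelK

/-! ### Norms and equivariant maps -/

section NrmMap

/-- An additive map which is equivariant along a homomorphism of groups commutes with the cyclic
norms `∑_{i<n} σ^i`. -/
theorem nrm_map_of_equivariant {k k' G G' : Type} [CommRing k] [CommRing k'] [Group G] [Group G']
    (X : Rep.{0} k G) (Y : Rep.{0} k' G') (φ : G →* G') (f : X.V →+ Y.V)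
    (hf : ∀ g x, f (X.ρ g x) = Y.ρ (φ g) (f x)) (σ : G) (n : ℕ) (x : X.V) :
    f (nrm X σ n x) = nrm Y (φ σ) n (f x) := by
  unfold nrm
  rw [map_sum]
  refine Finset.sum_congr rfl fun i _ => ?_
  rw [hf, map_pow]

end NrmMap

/-! ### Localisation -/

section Loc

variable {R k : Type} [CommRing R] [CommRing k] [Algebra R k] {M : Submonoid R}
  {G : Type} [Group G] (𝒰 : Levels G) (hfin : ∀ U ∈ 𝒰.sets, U.FiniteIndex)
  {X X' : Rep.{0} R G} {XK XK' : Rep.{0} k G} {fX : X.V →+ XK.V} {fX' : X'.V →+ XK'.V}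
  (hX : IsLocRep M X XK fX) (hX' : IsLocRep M X' XK' fX') (hsm' : IsSmooth 𝒰 X')
  (g : X ⟶ X') (gK : XK ⟶ XK') (hg : ∀ x, gK.hom (fX x) = fX' (g.hom x))
  (U : Subgroup G) [U.Normal] (σ : G ⧸ U) (n : ℕ)

include hfin hsm' hg hX' in
/-- **The hypotheses of `exists_class` after localisation.** -/
theorem loc_class_hyps (r : R) (a b : X.quotientToInvariants U)
    (ha : (X.quotientToInvariants U).ρ σ a = a)
    (hr : r • a = nrm (X.quotientToInvariants U) σ n b)
    (hne : ∀ s ∈ M, ∀ c : X'.quotientToInvariants U,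
      s • (layerMap g U).hom a ≠ nrm (X'.quotientToInvariants U) σ n c) :
    (XK.quotientToInvariants U).ρ σ (invMap hX U a) = invMap hX U a ∧
    (∃ b' : XK.quotientToInvariants U,
      algebraMap R k r • invMap hX U a = nrm (XK.quotientToInvariants U) σ n b') ∧
    ∀ c : XK'.quotientToInvariants U,
      (layerMap gK U).hom (invMap hX U a) ≠ nrm (XK'.quotientToInvariants U) σ n c := by
  have hρ : ∀ (τ : G ⧸ U) (x : X.quotientToInvariants U),
      invMap hX U ((X.quotientToInvariants U).ρ τ x) =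
        (XK.quotientToInvariants U).ρ τ (invMap hX U x) := by
    intro τ x
    induction τ using QuotientGroup.induction_on with
    | H γ => exact Subtype.ext (hX.map_ρ γ x.1)
  have hρ' : ∀ (τ : G ⧸ U) (x : X'.quotientToInvariants U),
      invMap hX' U ((X'.quotientToInvariants U).ρ τ x) =
        (XK'.quotientToInvariants U).ρ τ (invMap hX' U x) := by
    intro τ x
    induction τ using QuotientGroup.induction_on with
    | H γ => exact Subtype.ext (hX'.map_ρ γ x.1)
  have hsmul : ∀ (s : R) (x : X.quotientToInvariants U),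
      invMap hX U (s • x) = algebraMap R k s • invMap hX U x :=
    fun s x => Subtype.ext (hX.map_smul s x.1)
  have hsmul' : ∀ (s : R) (x : X'.quotientToInvariants U),
      invMap hX' U (s • x) = algebraMap R k s • invMap hX' U x :=
    fun s x => Subtype.ext (hX'.map_smul s x.1)
  have hgU : ∀ x : X.quotientToInvariants U,
      (layerMap gK U).hom (invMap hX U x) = invMap hX' U ((layerMap g U).hom x) :=
    fun x => Subtype.ext (hg x.1)
  refine ⟨?_, ⟨invMap hX U b, ?_⟩, ?_⟩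
  · rw [← hρ, ha]
  · rw [← hsmul, hr]
    exact nrm_map_of_equivariant (X.quotientToInvariants U) (XK.quotientToInvariants U)
      (MonoidHom.id _) (invMap hX U) hρ σ n b
  · intro c hc
    have hI' := isLocRep_invariants hX' 𝒰 hfin hsm' U
    obtain ⟨s, hs, c', hc'⟩ := hI'.surj c
    have h1 : invMap hX' U (s • (layerMap g U).hom a - nrm (X'.quotientToInvariants U) σ n c')
        = 0 := by
      rw [map_sub, hsmul', ← hgU, hc,
        nrm_map_of_equivariant (X'.quotientToInvariants U) (XK'.quotientToInvariants U)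
          (MonoidHom.id _) (invMap hX' U) hρ' σ n c', ← hc',
        Fermat.Agent.CFT.C6.CyclicLayer.nrm_smul]
      exact sub_self _
    obtain ⟨s', hs', h2⟩ := hI'.eq_zero _ h1
    rw [smul_sub, sub_eq_zero, smul_smul, ← Fermat.Agent.CFT.C6.CyclicLayer.nrm_smul] at h2
    exact hne (s' * s) (M.mul_mem hs' hs) (s' • c') h2

end Loc

/-! ### Layer dictionaries -/

section Dict

variable {R : Type} [CommRing R] {G Γ : Type} [Group G] [Group Γ] {X X' : Rep.{0} R G}
  {U : Subgroup G} [U.Normal] {A A' : Rep.{0} R Γ}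
  (d : LayerDict X U A) (d' : LayerDict X' U A') (hee : ∀ τ, d'.e τ = d.e τ)
  (g : X ⟶ X') (φ : A.V →+ A'.V)
  (hφ : ∀ x, d'.e' ((layerMap g U).hom x) = φ (d.e' x))

theorem dict_nrm (σ : G ⧸ U) (n : ℕ) (x : X.quotientToInvariants U) :
    d.e' (nrm (X.quotientToInvariants U) σ n x) = nrm A (d.e σ) n (d.e' x) :=
  nrm_map_of_equivariant (X.quotientToInvariants U) A (d.e : G ⧸ U →* Γ)
    (d.e' : (X.quotientToInvariants U).V →+ A.V) (fun τ y => d.he_apply τ y) σ n x

include hee hφ in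
/-- **The hypotheses of `loc_class_hyps` from the finite-level models.** -/
theorem dict_class_hyps (M : Submonoid R) (σ₀ : Γ) (n : ℕ) (r : R) (t x : A.V)
    (ht : A.ρ σ₀ t = t) (hr : r • t = nrm A σ₀ n x)
    (hne : ∀ s ∈ M, ∀ c : A'.V, s • φ t ≠ nrm A' σ₀ n c) :
    (X.quotientToInvariants U).ρ (d.e.symm σ₀) (d.e'.symm t) = d.e'.symm t ∧
    r • d.e'.symm t = nrm (X.quotientToInvariants U) (d.e.symm σ₀) n (d.e'.symm x) ∧
    ∀ s ∈ M, ∀ c : X'.quotientToInvariants U,
      s • (layerMap g U).hom (d.e'.symm t) ≠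
        nrm (X'.quotientToInvariants U) (d.e.symm σ₀) n c := by
  refine ⟨?_, ?_, ?_⟩
  · rw [← d.symm_he_apply, ht]
  · apply d.e'.injective
    rw [map_smul, LinearEquiv.apply_symm_apply, dict_nrm, MulEquiv.apply_symm_apply,
      LinearEquiv.apply_symm_apply, hr]
  · intro s hs c hc
    apply hne s hs (d'.e' c)
    have h1 := congrArg d'.e' hc
    rw [map_smul, hφ, LinearEquiv.apply_symm_apply, dict_nrm, hee,
      MulEquiv.apply_symm_apply] at h1
    exact h1

end Dict

/-! ### The class -/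

section Class

variable {R k : Type} [CommRing R] [CommRing k] [Algebra R k] {M : Submonoid R}
  {G Γ : Type} [Group G] [Group Γ] (𝒰 : Levels G) (hfin : ∀ U ∈ 𝒰.sets, U.FiniteIndex)
  {X X' : Rep.{0} R G} {XK XK' : Rep.{0} k G} {fX : X.V →+ XK.V} {fX' : X'.V →+ XK'.V}
  (hX : IsLocRep M X XK fX) (hX' : IsLocRep M X' XK' fX') (hsm' : IsSmooth 𝒰 X')
  (g : X ⟶ X') (gK : XK ⟶ XK') (hg : ∀ x, gK.hom (fX x) = fX' (g.hom x))
  (U : Subgroup G) [U.Normal] (hU : U ∈ 𝒰.sets)
  {A A' : Rep.{0} R Γ} (d : LayerDict X U A) (d' : LayerDict X' U A')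
  (hee : ∀ τ, d'.e τ = d.e τ) (φ : A.V →+ A'.V)
  (hφ : ∀ x, d'.e' ((layerMap g U).hom x) = φ (d.e' x))

include hfin hX hX' hsm' hg hee hφ in
/-- **One class of `H²_LC(G, XK)` from a cyclic layer, finite-level form**: `(Γ, A)`, `(Γ, A')`
models over `R` of the layers of `X`, `X'` at `U`, `Γ = ⟨σ₀⟩` cyclic of order `n > 1`, `t ∈ A^{σ₀}`
with `r • t` a norm and no `s • φ t`, `s ∈ M`, a norm from `A'`. -/
theorem exists_class_of_dict (hinfl : Function.Injective (infl 𝒰 XK' U hU 2).hom)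
    (σ₀ : Γ) (n : ℕ) (hord : orderOf σ₀ = n) (h1 : 1 < n) (hgen : ∀ γ : Γ, ∃ i : ℕ, σ₀ ^ i = γ)
    (r : R) (t x : A.V) (ht : A.ρ σ₀ t = t) (hr : r • t = nrm A σ₀ n x)
    (hne : ∀ s ∈ M, ∀ c : A'.V, s • φ t ≠ nrm A' σ₀ n c) :
    ∃ y₀ : H 𝒰 XK 2, algebraMap R k r • y₀ = 0 ∧ (mapId (𝒰 := 𝒰) gK 2).hom y₀ ≠ 0 := by
  obtain ⟨h2, h3, h4⟩ := dict_class_hyps d d' hee g φ hφ M σ₀ n r t x ht hr hne
  obtain ⟨h5, h6, h7⟩ := loc_class_hyps 𝒰 hfin hX hX' hsm' g gK hg U (d.e.symm σ₀) n r
    (d.e'.symm t) (d.e'.symm x) h2 h3 h4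
  have hord' : orderOf (d.e.symm σ₀) = n := by rw [MulEquiv.orderOf_eq, hord]
  have hgen' : ∀ y : G ⧸ U, ∃ i : ℕ, (d.e.symm σ₀) ^ i = y := by
    intro y
    obtain ⟨i, hi⟩ := hgen (d.e y)
    exact ⟨i, by rw [← map_pow, hi, MulEquiv.symm_apply_apply]⟩
  exact Fermat.Agent.CFT.D.CyclicClass.exists_class 𝒰 gK U hU hord' h1 hgen' hinfl
    (algebraMap R k r) (invMap hX U (d.e'.symm t)) h5 h6 h7

end Class

end Fermat.Agent.CFT.D.DatumBuild
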