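/-
PROJECT C, Layer D (helper8): THE FIELD `supp` OF `DatumBuild.GlobalInputs` FROM THE CLASS
FORMATION ALONE.

* helper13 `C7.SuppLayer.exists_layer_data` : over `ℤ`, a level `U` of `G_S` with `GQ ⧸ U = ⟨σ⟩`
  cyclic of order `n > 1`, a `σ`-invariant `a₀ ∈ J_q^U` with `p • a₀` a norm and no `s • a₀`,
  `p ∤ s`, a norm in `C_S^U`;
* `loc_class_hyps` (`D/Datum/SuppLoc`) : the same after `⊗ ℤ_(p)`;
* helper13 `D.CyclicClass.exists_class` : the class `y₀` (inflation injective on `H²(-, C)` by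
  `cf.infl_two_injective`);
* helper23 `D.DatumSupp.supp_Zp` : the reduction of `supp` to one class per prime.
-/
import Fermat.Agent.CFT.D.Datum.SuppLoc
import Fermat.Agent.CFT.D.Datum.Build
import Fermat.Agent.CFT.D.DatumSupp
import Fermat.Agent.CFT.C7.SuppLayer

set_option autoImplicit false

noncomputable section

namespace Fermat.Agent.CFT.D.DatumBuild

open CategoryTheory groupCohomology ExtCitation
open Fermat.Agent.CFT.LC Fermat.Agent.CFT.Bridge Fermat.Agent.CFT.A7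
  Fermat.Agent.CFT.A7.BaseChange Fermat.Agent.CFT.A7.CFBaseChange
  Fermat.Agent.CFT.Local.CyclicH2 Fermat.Agent.CFT.Idele Fermat.Agent.CFT.D.ZpModel
  Fermat.Agent.CFT.D.Reduce Fermat.Agent.CFT.D.DatumInjFrob Fermat.Agent.CFT.C7.SES
  Fermat.Agent.CFT.D.H4.QIdele Fermat.Agent.CFT.C7.LevelK

variable (p : ℕ) [Fact p.Prime] (S : Finset Nat.Primes)

/-- **One class of order `p` per prime of `S`** with nonzero image in `H²(G_S, C_S ⊗ ℤ_(p))`. -/
theorem exists_y0 (hp2 : p ≠ 2) (hpS : pPrime p ∈ S)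
    (cf : ClassFormation (levelsS S) (seqK S (Zp p)).X₃) (q : ↥S) :
    ∃ y₀ : H (levelsS S) (JqK S q.1 (Zp p)) 2, (p : Zp p) • y₀ = 0 ∧
      mapId ((biprodK S (Zp p)).i q ≫ (seqK S (Zp p)).g) 2 y₀ ≠ 0 := by
  obtain ⟨U, hUn, hU, σ, n, hord, h1, hgen, a₀, b, ha₀, hr, hne⟩ :=
    Fermat.Agent.CFT.C7.SuppLayer.exists_layer_data (P := pPrime p) S hp2 hpS q.1 q.2
  have hX : IsLocRep (primeTo p) (QS.Jq S q.1) (JqK S q.1 (Zp p))
      (toTensorRep (k := Zp p) (QS.Jq S q.1)) := isLocRep_tensorRep (primeTo p) (QS.Jq S q.1)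
  have hX' := isLocRep_seqK_X₃ S p (Zp p)
  have hg : ∀ x : (QS.Jq S q.1).V,
      ((biprodK S (Zp p)).i q ≫ (seqK S (Zp p)).g).hom (toTensorRep (k := Zp p) (QS.Jq S q.1) x) =
        toTensorRep (k := Zp p) (QS.C S) ((QS.single S q.1 q.2 ≫ QS.toC S).hom x) := by
    intro x
    change (tensorMap (Zp p) (QS.toC S)).hom
      ((tensorMap (Zp p) (QS.single S q.1 q.2)).hom (toTensorRep (k := Zp p) (QS.Jq S q.1) x)) = _
    rw [← tensorMap_toTensorRep, ← tensorMap_toTensorRep]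
    rfl
  obtain ⟨h5, h6, h7⟩ := loc_class_hyps (M := primeTo p) (levelsS S) (finiteIndex_levelsS S) hX hX'
    (QS.isSmooth_C S) (QS.single S q.1 q.2 ≫ QS.toC S)
    ((biprodK S (Zp p)).i q ≫ (seqK S (Zp p)).g) hg U σ n ((p : ℕ) : ℤ) a₀ b ha₀ hr
    (fun s hs c => hne s hs c)
  obtain ⟨y₀, hy1, hy2⟩ := Fermat.Agent.CFT.D.CyclicClass.exists_class (levelsS S)
    ((biprodK S (Zp p)).i q ≫ (seqK S (Zp p)).g) U hU hord h1 hgen
    (cf.infl_two_injective U hU) (algebraMap ℤ (Zp p) ((p : ℕ) : ℤ)) (invMap hX U a₀) h5 h6 h7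
  refine ⟨y₀, ?_, hy2⟩
  rw [← hy1]
  congr 1

/-- **The field `supp` of `GlobalInputs`** from the global class formation. -/
theorem supp_of_cf (hp2 : p ≠ 2) (hpS : pPrime p ∈ S)
    (cf : ClassFormation (levelsS S) (seqK S (Zp p)).X₃) :
    ∀ q, ∀ y : H (levelsS S) (seqK S (Zp p)).X₂ 2,
      (∀ q', q' ≠ q → map (A := (seqK S (Zp p)).X₂) (B := DlocK S (Zp p) q') (hrv S q')
        (piJK S (Zp p) q') 2 y = 0) → mapId (seqK S (Zp p)).g 2 y = 0 → y = 0 :=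
  Fermat.Agent.CFT.D.DatumSupp.supp_Zp S p (fun q => exists_y0 p S hp2 hpS cf q)

end Fermat.Agent.CFT.D.DatumBuild
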